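import Mathlib

/-!
# S16 upper bound, package PKG-11: the final arithmetic

`(p² - 1)/24 = n * s` with `n = (p-1)/gcd(p-1,12)`, `s = gcd(p-1,12) (p+1) / 24 ∈ ℕ`, and every prime
`ℓ ∣ s` satisfies: `ℓ ≥ 5 ∧ ℓ ∣ p+1`, or `ℓ = 3 ∧ 9 ∣ p+1`, or `ℓ = 2 ∧ 8 ∣ p+1`.  So `gcd(M, s) = 1`.
-/

set_option autoImplicit false

namespace Fermat.Agent.S16

/-- the coprimality step of `upper_arith`. -/
theorem upper_arith_coprime {P s M : ℕ} (hsP : s ∣ P)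
    (h2 : ∀ ℓ : ℕ, ℓ.Prime → 5 ≤ ℓ → ℓ ∣ P → ¬ ℓ ∣ M)
    (h3 : 9 ∣ P → ¬ 3 ∣ M) (h4 : 8 ∣ P → ¬ 2 ∣ M)
    (h3' : 3 ∣ s → 9 ∣ P) (h4' : 2 ∣ s → 8 ∣ P) : Nat.Coprime M s := by
  apply Nat.Coprime.symm
  apply Nat.coprime_of_dvd
  intro ℓ hℓ hℓs
  have h2le := hℓ.two_le
  by_cases hℓ5 : 5 ≤ ℓ
  · exact h2 ℓ hℓ hℓ5 (hℓs.trans hsP)
  · have hcases : ℓ = 2 ∨ ℓ = 3 ∨ ℓ = 4 := by omega
    rcases hcases with rfl | rfl | rfl
    · exact h4 (h4' hℓs)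
    · exact h3 (h3' hℓs)
    · exact absurd hℓ (by norm_num)

/-- the common final step of `upper_arith`. -/
theorem upper_arith_aux {p n s g M : ℕ} (hg : Nat.gcd (p - 1) 12 = g) (hn : (p - 1) / g = n)
    (hns : p ^ 2 = 24 * (n * s) + 1) (h1 : M ∣ (p ^ 2 - 1) / 24) (hco : Nat.Coprime M s) :
    M ∣ (p - 1) / Nat.gcd (p - 1) 12 := by
  rw [hg, hn]
  have h : (p ^ 2 - 1) / 24 = n * s := by
    rw [hns, Nat.add_sub_cancel, Nat.mul_div_cancel_left _ (by norm_num)]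
  rw [h] at h1
  exact hco.dvd_of_dvd_mul_right h1

theorem upper_arith {p : ℕ} (hp : p.Prime) (h5 : 5 ≤ p) {M : ℕ} (h1 : M ∣ (p ^ 2 - 1) / 24)
    (h2 : ∀ ℓ : ℕ, ℓ.Prime → 5 ≤ ℓ → ℓ ∣ p + 1 → ¬ ℓ ∣ M)
    (h3 : 9 ∣ p + 1 → ¬ 3 ∣ M) (h4 : 8 ∣ p + 1 → ¬ 2 ∣ M) :
    M ∣ (p - 1) / Nat.gcd (p - 1) 12 := by
  have hn2 : ¬ 2 ∣ p := fun h => by
    have := (Nat.prime_dvd_prime_iff_eq Nat.prime_two hp).mp h
    omega
  have hn3 : ¬ 3 ∣ p := fun h => by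
    have := (Nat.prime_dvd_prime_iff_eq Nat.prime_three hp).mp h
    omega
  have hgcd : Nat.gcd (p - 1) 12 = Nat.gcd ((p - 1) % 12) 12 := by
    rw [Nat.gcd_comm, Nat.gcd_rec]
  have hr : p % 12 = 1 ∨ p % 12 = 5 ∨ p % 12 = 7 ∨ p % 12 = 11 := by omega
  obtain ⟨t, ht⟩ : ∃ t, p = 12 * t + p % 12 := ⟨p / 12, (Nat.div_add_mod p 12).symm⟩
  rcases hr with hr | hr | hr | hr
  · rw [hr] at ht
    have hm : (p - 1) % 12 = 0 := by omega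
    refine upper_arith_aux (n := t) (s := 6 * t + 1) (g := 12) (by rw [hgcd, hm]; rfl)
      (by omega) (by rw [ht]; ring) h1
      (upper_arith_coprime (P := p + 1) ⟨2, by omega⟩ h2 h3 h4 (by omega) (by omega))
  · rw [hr] at ht
    have hm : (p - 1) % 12 = 4 := by omega
    refine upper_arith_aux (n := 3 * t + 1) (s := 2 * t + 1) (g := 4) (by rw [hgcd, hm]; rfl)
      (by omega) (by rw [ht]; ring) h1
      (upper_arith_coprime (P := p + 1) ⟨6, by omega⟩ h2 h3 h4 (by omega) (by omega))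
  · rw [hr] at ht
    have hm : (p - 1) % 12 = 6 := by omega
    refine upper_arith_aux (n := 2 * t + 1) (s := 3 * t + 2) (g := 6) (by rw [hgcd, hm]; rfl)
      (by omega) (by rw [ht]; ring) h1
      (upper_arith_coprime (P := p + 1) ⟨4, by omega⟩ h2 h3 h4 (by omega) (by omega))
  · rw [hr] at ht
    have hm : (p - 1) % 12 = 10 := by omega
    refine upper_arith_aux (n := 6 * t + 5) (s := t + 1) (g := 2) (by rw [hgcd, hm]; rfl)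
      (by omega) (by rw [ht]; ring) h1
      (upper_arith_coprime (P := p + 1) ⟨12, by omega⟩ h2 h3 h4 (by omega) (by omega))

end Fermat.Agent.S16
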