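import Fermat.Agent.S16.Upper.Setup
import Fermat.Agent.S16.Core.Norm

/-!
# S16 upper bound, package PKG-9: odd primes dividing `p + 1`

`F = g / c = 1 + R₀ u`, `R₀ = 24 M / (p - 1)`, expansion at the other cusp `-(1/p)(1 + R₀ U_p u)`.
Take `R` from `exists_good_subring ℓ`.
* `ℓ ≥ 7`, `ℓ ∣ p + 1`, `ℓ ∣ M`: `X = (E₄ - F²) / 240 ≡ G₃ = ∑ σ₃(n) q^n` at `∞`; at `0` :
  `(V_p E₄ - p⁻² (1 + R₀ U_p u)²) / 240 ≡ V_p G₃` since `p² ≡ 1 (mod ℓ)`.  Weight `4 < 12`.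
* `ℓ = 5`: `X = (F³ - E₆) / 504 ≡ G₅`, using `-p⁻³ ≡ 1 (mod 5)`.  Weight `6 < 12`.
* `ℓ = 3`, `9 ∣ p + 1`, `3 ∣ M`: then `9 ∣ R₀` in `R`; `X = (E₄ - F²) / 240`, `240 = 3 * 80`,
  `(1 - p⁻²) / 240 ∈ 3 R`, `R₀ / 240 ∈ 3 R`.
In all cases `TwoCusp.false_of_congr` gives a contradiction.
`E4_qExpansion_eq`, `E6_qExpansion_eq` are in `SturmModLambda.lean`; `TwoCusp.of_levelOne`.
-/

set_option autoImplicit false

namespace Fermat.Agent.S16

open UpperHalfPlane ModularForm CongruenceSubgroup ModularFormClass Fermat.Agent.S23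
open scoped MatrixGroups ModularForm Manifold

variable {p : ℕ} [Fact p.Prime] {M : ℕ}

namespace B2Odd

/-- `∑ σ_k(n) qⁿ` with complex coefficients. -/
noncomputable def sigC (k : ℕ) : PowerSeries ℂ := PowerSeries.map (Int.castRingHom ℂ) (sigSeries k)

lemma sigC_mem_seriesIn (R : Subring ℂ) (k : ℕ) : sigC k ∈ seriesIn R :=
  intSeries_le_seriesIn R ⟨_, rfl⟩

lemma coeff_zero_sigC (k : ℕ) : PowerSeries.coeff 0 (sigC k) = 0 := by
  simp [sigC, sigSeries]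

lemma coeff_one_sigC (k : ℕ) : PowerSeries.coeff 1 (sigC k) = 1 := by
  simp [sigC, sigSeries]

lemma Vp_C_mul (q : ℕ) (c : ℂ) (A : PowerSeries ℂ) :
    Vp q (PowerSeries.C c * A) = PowerSeries.C c * Vp q A := by
  rw [← PowerSeries.smul_eq_C_mul, Vp_smul, PowerSeries.smul_eq_C_mul]

lemma map_intCast_eq_C (c : ℤ) :
    PowerSeries.map (Int.castRingHom ℂ) ((c : ℤ) : PowerSeries ℤ) = PowerSeries.C (c : ℂ) := by
  rw [map_intCast, map_intCast]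

lemma E4_qExpansion_sigC : qExpansion 1 E₄ = 1 + PowerSeries.C 240 * sigC 3 := by
  rw [E4_qExpansion_eq, map_add, map_one, map_mul, sigC, map_intCast_eq_C]
  norm_num

lemma E6_qExpansion_sigC : qExpansion 1 E₆ = 1 + PowerSeries.C (-504) * sigC 5 := by
  rw [E6_qExpansion_eq, map_add, map_one, map_mul, sigC, map_intCast_eq_C]
  norm_num

omit [Fact p.Prime] in
/-- the normalised form `F = g / c = 1 + r u`, `r = M / c`. -/
lemma twoCusp_normalised (hp : 5 ≤ p) {u : PowerSeries ℂ} (hu : UpperData p M u)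
    {r : ℂ} (hr : r * ((p : ℂ) - 1) = 24 * M) :
    TwoCusp p 2 (1 + PowerSeries.C r * u)
      (-PowerSeries.C ((p : ℂ)⁻¹) * (1 + PowerSeries.C r * Up p u)) := by
  have hp1 : (p : ℂ) - 1 ≠ 0 := by
    have : (p : ℂ) ≠ 1 := by
      have : p ≠ 1 := by omega
      exact_mod_cast this
    exact sub_ne_zero.2 this
  have hc : cEis p ≠ 0 := div_ne_zero hp1 (by norm_num)
  have hrc : r * cEis p = M := by
    unfold cEis
    field_simp
    linear_combination hr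
  have h := hu.twoCusp.smul (cEis p)⁻¹
  have hcc : PowerSeries.C (cEis p)⁻¹ * PowerSeries.C (cEis p) = 1 := by
    rw [← map_mul, inv_mul_cancel₀ hc, map_one]
  have hcM : PowerSeries.C (cEis p)⁻¹ * PowerSeries.C (M : ℂ) = PowerSeries.C r := by
    rw [← map_mul, ← hrc, mul_comm, mul_assoc, mul_inv_cancel₀ hc, mul_one]
  convert h using 1
  · simp only [PowerSeries.smul_eq_C_mul]
    linear_combination (-1 : PowerSeries ℂ) * hcc - u * hcM
  · simp only [PowerSeries.smul_eq_C_mul, map_neg]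
    linear_combination (PowerSeries.C ((p : ℂ)⁻¹)) * hcc
      + (PowerSeries.C ((p : ℂ)⁻¹)) * Up p u * hcM

/-- weight four contradiction. -/
lemma false_of_weight_four (hp : 5 ≤ p) {u : PowerSeries ℂ} (hu : UpperData p M u)
    (R : Subring ℂ) (ℓ : ℕ) (hℓ : ((ℓ : ℂ))⁻¹ ∉ R) (hζ : ∀ z : ℂ, z ^ p = 1 → z ∈ R)
    (hpR : (p : ℂ)⁻¹ ∈ R) {r' s' : ℂ} (hr' : r' ∈ R) (hs' : s' ∈ R)
    (hr : 240 * ℓ * r' * ((p : ℂ) - 1) = 24 * M)
    (hs : 1 - ((p : ℂ)⁻¹) ^ 2 = 240 * ℓ * s') : False := by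
  have hF := twoCusp_normalised hp hu hr
  have hX := ((TwoCusp.of_levelOne (p := p) E₄).sub (hF.mul hF (by norm_num : (2 : ℤ) + 2 = 4))).smul
    (240 : ℂ)⁻¹
  have hp0 : 0 < p := by omega
  have huR : u ∈ seriesIn R := intSeries_le_seriesIn R hu.int
  have hUR : Up p u ∈ seriesIn R := Up_mem_seriesIn p huR
  have h240 : (240 : ℂ) ∈ R := by exact_mod_cast natCast_mem R 240
  have hℓR : (ℓ : ℂ) ∈ R := natCast_mem R ℓ
  have hrR : 240 * ℓ * r' ∈ R := R.mul_mem (R.mul_mem h240 hℓR) hr'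
  have hsC : 1 - PowerSeries.C ((p : ℂ)⁻¹) ^ 2
      = PowerSeries.C (240 : ℂ) * PowerSeries.C (ℓ : ℂ) * PowerSeries.C s' := by
    rw [← map_pow, ← map_one (PowerSeries.C (R := ℂ)), ← map_sub, hs, map_mul, map_mul]
  refine hX.false_of_congr (by norm_num) R ℓ hℓ hζ (sigC 3) (sigC_mem_seriesIn R 3)
    (coeff_zero_sigC 3) (coeff_one_sigC 3)
    ⟨-PowerSeries.C r' * (2 * u + PowerSeries.C (240 * ℓ * r') * u * u), ?_, ?_⟩
    ⟨PowerSeries.C s' - PowerSeries.C ((p : ℂ)⁻¹) ^ 2 * PowerSeries.C r' *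
      (2 * Up p u + PowerSeries.C (240 * ℓ * r') * Up p u * Up p u), ?_, ?_⟩
  · have h2 : (2 : PowerSeries ℂ) ∈ seriesIn R := by exact_mod_cast natCast_mem (seriesIn R) 2
    exact (seriesIn R).mul_mem ((seriesIn R).neg_mem (C_mem_seriesIn hr'))
      ((seriesIn R).add_mem ((seriesIn R).mul_mem h2 huR)
        ((seriesIn R).mul_mem ((seriesIn R).mul_mem (C_mem_seriesIn hrR) huR) huR))
  · rw [inv_smul_eq_iff₀ (by norm_num), E4_qExpansion_sigC]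
    simp only [PowerSeries.smul_eq_C_mul, map_mul]
    ring
  · have h2 : (2 : PowerSeries ℂ) ∈ seriesIn R := by exact_mod_cast natCast_mem (seriesIn R) 2
    exact (seriesIn R).sub_mem (C_mem_seriesIn hs')
      ((seriesIn R).mul_mem
        ((seriesIn R).mul_mem ((seriesIn R).pow_mem (C_mem_seriesIn hpR) 2) (C_mem_seriesIn hr'))
        ((seriesIn R).add_mem ((seriesIn R).mul_mem h2 hUR)
          ((seriesIn R).mul_mem ((seriesIn R).mul_mem (C_mem_seriesIn hrR) hUR) hUR)))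
  · rw [inv_smul_eq_iff₀ (by norm_num), E4_qExpansion_sigC, Vp_add, Vp_one hp0, Vp_C_mul]
    simp only [PowerSeries.smul_eq_C_mul, map_mul]
    linear_combination hsC

/-- weight six contradiction. -/
lemma false_of_weight_six (hp : 5 ≤ p) {u : PowerSeries ℂ} (hu : UpperData p M u)
    (R : Subring ℂ) (ℓ : ℕ) (hℓ : ((ℓ : ℂ))⁻¹ ∉ R) (hζ : ∀ z : ℂ, z ^ p = 1 → z ∈ R)
    (hpR : (p : ℂ)⁻¹ ∈ R) {r' s' : ℂ} (hr' : r' ∈ R) (hs' : s' ∈ R)
    (hr : 504 * ℓ * r' * ((p : ℂ) - 1) = 24 * M)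
    (hs : -((p : ℂ)⁻¹) ^ 3 - 1 = 504 * ℓ * s') : False := by
  have hF := twoCusp_normalised hp hu hr
  have hX := (((hF.mul hF (by norm_num : (2 : ℤ) + 2 = 4)).mul hF
    (by norm_num : (4 : ℤ) + 2 = 6)).sub (TwoCusp.of_levelOne (p := p) E₆)).smul (504 : ℂ)⁻¹
  have hp0 : 0 < p := by omega
  have huR : u ∈ seriesIn R := intSeries_le_seriesIn R hu.int
  have hUR : Up p u ∈ seriesIn R := Up_mem_seriesIn p huR
  have h504 : (504 : ℂ) ∈ R := by exact_mod_cast natCast_mem R 504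
  have hℓR : (ℓ : ℂ) ∈ R := natCast_mem R ℓ
  have hrR : 504 * ℓ * r' ∈ R := R.mul_mem (R.mul_mem h504 hℓR) hr'
  have hsC : -PowerSeries.C ((p : ℂ)⁻¹) ^ 3 - 1
      = PowerSeries.C (504 : ℂ) * PowerSeries.C (ℓ : ℂ) * PowerSeries.C s' := by
    rw [← map_pow, ← map_one (PowerSeries.C (R := ℂ)), ← map_neg, ← map_sub, hs, map_mul, map_mul]
  have h3 : (3 : PowerSeries ℂ) ∈ seriesIn R := by exact_mod_cast natCast_mem (seriesIn R) 3
  have hmem : ∀ v ∈ seriesIn R, 3 * v + 3 * PowerSeries.C (504 * ℓ * r') * v * v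
      + PowerSeries.C (504 * ℓ * r') ^ 2 * v * v * v ∈ seriesIn R := fun v hv =>
    (seriesIn R).add_mem ((seriesIn R).add_mem ((seriesIn R).mul_mem h3 hv)
      ((seriesIn R).mul_mem ((seriesIn R).mul_mem
        ((seriesIn R).mul_mem h3 (C_mem_seriesIn hrR)) hv) hv))
      ((seriesIn R).mul_mem ((seriesIn R).mul_mem ((seriesIn R).mul_mem
        ((seriesIn R).pow_mem (C_mem_seriesIn hrR) 2) hv) hv) hv)
  refine hX.false_of_congr (by norm_num) R ℓ hℓ hζ (sigC 5) (sigC_mem_seriesIn R 5)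
    (coeff_zero_sigC 5) (coeff_one_sigC 5)
    ⟨PowerSeries.C r' * (3 * u + 3 * PowerSeries.C (504 * ℓ * r') * u * u
      + PowerSeries.C (504 * ℓ * r') ^ 2 * u * u * u), ?_, ?_⟩
    ⟨PowerSeries.C s' - PowerSeries.C ((p : ℂ)⁻¹) ^ 3 * PowerSeries.C r' *
      (3 * Up p u + 3 * PowerSeries.C (504 * ℓ * r') * Up p u * Up p u
      + PowerSeries.C (504 * ℓ * r') ^ 2 * Up p u * Up p u * Up p u), ?_, ?_⟩
  · exact (seriesIn R).mul_mem (C_mem_seriesIn hr') (hmem u huR)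
  · rw [inv_smul_eq_iff₀ (by norm_num), E6_qExpansion_sigC]
    simp only [PowerSeries.smul_eq_C_mul, map_mul, map_neg]
    ring
  · exact (seriesIn R).sub_mem (C_mem_seriesIn hs')
      ((seriesIn R).mul_mem
        ((seriesIn R).mul_mem ((seriesIn R).pow_mem (C_mem_seriesIn hpR) 3) (C_mem_seriesIn hr'))
        (hmem _ hUR))
  · rw [inv_smul_eq_iff₀ (by norm_num), E6_qExpansion_sigC, Vp_add, Vp_one hp0, Vp_C_mul]
    simp only [PowerSeries.smul_eq_C_mul, map_mul, map_neg]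
    linear_combination hsC

omit [Fact p.Prime] in
/-- the good ring, with the facts about `p` that we need. -/
lemma exists_good_subring' (hp : 5 ≤ p) {ℓ : ℕ} (hℓ : ℓ.Prime) (h3 : 3 ≤ ℓ) (hdvd : ℓ ∣ p + 1) :
    ∃ R : Subring ℂ, ((ℓ : ℂ))⁻¹ ∉ R ∧ (∀ m : ℕ, ¬ ℓ ∣ m → ((m : ℂ))⁻¹ ∈ R) ∧
      (∀ z : ℂ, z ^ p = 1 → z ∈ R) ∧ (p : ℂ)⁻¹ ∈ R ∧ ((p : ℂ) - 1)⁻¹ ∈ R := by
  obtain ⟨R, h1, h2, h3'⟩ := exists_good_subring ℓ hℓ
  refine ⟨R, h1, h2, fun z hz => h3' p z (by omega) hz, h2 p ?_, ?_⟩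
  · intro h
    have : ℓ ∣ 1 := (Nat.dvd_add_right h).1 hdvd
    have := Nat.le_of_dvd one_pos this
    omega
  · have h4 := h2 (p - 1) ?_
    · rwa [Nat.cast_sub (by omega), Nat.cast_one] at h4
    · intro h
      have h5 : ℓ ∣ (p - 1) + 2 := by
        have : p - 1 + 2 = p + 1 := by omega
        rwa [this]
      have : ℓ ∣ 2 := (Nat.dvd_add_right h).1 h5
      have := Nat.le_of_dvd two_pos this
      omega

lemma not_dvd_of_seven_le {ℓ : ℕ} (hℓ : ℓ.Prime) (h7 : 7 ≤ ℓ) {n e : ℕ} (hn : n ∣ 30 ^ e) :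
    ¬ ℓ ∣ n := by
  intro h
  have h1 : ℓ ∣ 30 := hℓ.dvd_of_dvd_pow (h.trans hn)
  have h2 : ℓ ∣ 2 * 3 * 5 := by norm_num; exact h1
  rcases hℓ.dvd_mul.1 h2 with h3 | h3
  · rcases hℓ.dvd_mul.1 h3 with h4 | h4
    · have := Nat.le_of_dvd (by norm_num) h4; omega
    · have := Nat.le_of_dvd (by norm_num) h4; omega
  · have := Nat.le_of_dvd (by norm_num) h3; omega

end B2Odd

open B2Odd

theorem upper_B2_ge_five (hp : 5 ≤ p) {u : PowerSeries ℂ} (hu : UpperData p M u)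
    {ℓ : ℕ} (hℓ : ℓ.Prime) (h5 : 5 ≤ ℓ) (hdvd : ℓ ∣ p + 1) : ¬ ℓ ∣ M := by
  intro hM
  obtain ⟨R, h1, h2, hζ, hpR, hp1R⟩ := exists_good_subring' hp hℓ (by omega) hdvd
  obtain ⟨m, rfl⟩ := hM
  obtain ⟨k, hk⟩ := hdvd
  have hkC : (p : ℂ) + 1 = ℓ * k := by exact_mod_cast hk
  have hp0 : (p : ℂ) ≠ 0 := by
    have : p ≠ 0 := by omega
    exact_mod_cast this
  have hp1 : (p : ℂ) - 1 ≠ 0 := by
    have : (p : ℂ) ≠ 1 := by
      have : p ≠ 1 := by omega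
      exact_mod_cast this
    exact sub_ne_zero.2 this
  have hpm : (p : ℂ) ∈ R := natCast_mem R p
  by_cases h57 : ℓ = 5
  · subst h57
    have h21 : ((21 : ℕ) : ℂ)⁻¹ ∈ R := h2 21 (by norm_num)
    have h504 : ((504 : ℕ) : ℂ)⁻¹ ∈ R := h2 504 (by norm_num)
    refine false_of_weight_six hp hu R 5 h1 hζ hpR
      (r' := m * ((21 : ℕ) : ℂ)⁻¹ * ((p : ℂ) - 1)⁻¹)
      (s' := -(k * ((p : ℂ) ^ 2 - p + 1) * ((p : ℂ)⁻¹) ^ 3 * ((504 : ℕ) : ℂ)⁻¹))
      (R.mul_mem (R.mul_mem (natCast_mem R m) h21) hp1R)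
      (R.neg_mem (R.mul_mem (R.mul_mem (R.mul_mem (natCast_mem R k)
        (R.add_mem (R.sub_mem (R.pow_mem hpm 2) hpm) R.one_mem)) (R.pow_mem hpR 3)) h504)) ?_ ?_
    · push_cast
      field_simp
      ring
    · push_cast at hkC ⊢
      field_simp
      linear_combination (-((p : ℂ) ^ 2 - p + 1)) * hkC
  · have h7 : 7 ≤ ℓ := by
      rcases Nat.lt_or_ge ℓ 7 with h | h
      · interval_cases ℓ
        · exact absurd rfl h57
        · exact absurd hℓ (by norm_num)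
      · exact h
    have h10 : ((10 : ℕ) : ℂ)⁻¹ ∈ R := h2 10 (not_dvd_of_seven_le hℓ h7 (e := 1) (by norm_num))
    have h240 : ((240 : ℕ) : ℂ)⁻¹ ∈ R := h2 240 (not_dvd_of_seven_le hℓ h7 (e := 4) (by norm_num))
    have hℓ0 : (ℓ : ℂ) ≠ 0 := by
      have : ℓ ≠ 0 := by omega
      exact_mod_cast this
    refine false_of_weight_four hp hu R ℓ h1 hζ hpR
      (r' := m * ((10 : ℕ) : ℂ)⁻¹ * ((p : ℂ) - 1)⁻¹)
      (s' := ((p : ℂ) - 1) * k * ((p : ℂ)⁻¹) ^ 2 * ((240 : ℕ) : ℂ)⁻¹)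
      (R.mul_mem (R.mul_mem (natCast_mem R m) h10) hp1R)
      (R.mul_mem (R.mul_mem (R.mul_mem (R.sub_mem hpm R.one_mem) (natCast_mem R k))
        (R.pow_mem hpR 2)) h240) ?_ ?_
    · push_cast
      field_simp
      ring
    · push_cast
      field_simp
      linear_combination ((p : ℂ) - 1) * hkC

theorem upper_B2_three (hp : 5 ≤ p) {u : PowerSeries ℂ} (hu : UpperData p M u)
    (hdvd : 9 ∣ p + 1) : ¬ 3 ∣ M := by
  intro hM
  obtain ⟨R, h1, h2, hζ, hpR, hp1R⟩ := exists_good_subring' hp Nat.prime_three le_rfl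
    (Dvd.dvd.trans (by norm_num) hdvd)
  obtain ⟨m, rfl⟩ := hM
  obtain ⟨k, hk⟩ := hdvd
  have hkC : (p : ℂ) + 1 = 9 * k := by exact_mod_cast hk
  have hp0 : (p : ℂ) ≠ 0 := by
    have : p ≠ 0 := by omega
    exact_mod_cast this
  have hp1 : (p : ℂ) - 1 ≠ 0 := by
    have : (p : ℂ) ≠ 1 := by
      have : p ≠ 1 := by omega
      exact_mod_cast this
    exact sub_ne_zero.2 this
  have hpm : (p : ℂ) ∈ R := natCast_mem R p
  have h10 : ((10 : ℕ) : ℂ)⁻¹ ∈ R := h2 10 (by norm_num)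
  have h80 : ((80 : ℕ) : ℂ)⁻¹ ∈ R := h2 80 (by norm_num)
  refine false_of_weight_four hp hu R 3 h1 hζ hpR
    (r' := m * ((10 : ℕ) : ℂ)⁻¹ * ((p : ℂ) - 1)⁻¹)
    (s' := ((p : ℂ) - 1) * k * ((p : ℂ)⁻¹) ^ 2 * ((80 : ℕ) : ℂ)⁻¹)
    (R.mul_mem (R.mul_mem (natCast_mem R m) h10) hp1R)
    (R.mul_mem (R.mul_mem (R.mul_mem (R.sub_mem hpm R.one_mem) (natCast_mem R k))
      (R.pow_mem hpR 2)) h80) ?_ ?_
  · push_cast
    field_simp
    ring
  · push_cast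
    field_simp
    linear_combination (80 * ((p : ℂ) - 1)) * hkC

end Fermat.Agent.S16
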