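import Fermat.Agent.S16.Upper.Setup
import Fermat.Agent.S16.Core.Norm

/-!
# S16 upper bound, package PKG-10: the prime `2` when `8 ∣ p + 1`

Assume `2 ∣ M`, `8 ∣ p + 1`.  `F = g / c = 1 + R₀ u`, `R₀ = 24 M / (p - 1) ∈ 8 R` (`(p-1)/2` is odd).
So `F = 1 + 8 v`, `v ∈ R⟦q⟧`; at the other cusp `F̃ = -(1/p)(1 + R₀ U_p u) = 1 + 8 v'`
(as `-1/p ≡ 1 (mod 8)`).
With `E₄ = 1 + 240 G₃`, `E₆ = 1 - 504 G₅`:
  `K  = (F² - E₄)/16 = v + 4 v² - 15 G₃`,
  `M' = (F³ - 24 F K - E₆)/32 = -3 v² - 8 v³ + 90 v G₃ + (45 G₃ + 63 G₅)/4`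
        (`4 ∣ 45 σ₃(n) + 63 σ₅(n)`),
  `P₈ = 3 K² + F M'` (weight 8),
  `27 Δ = F² P₈ - 24 F K M' - 64 K³ - 16 M'²`  (from `1728 Δ = E₄³ - E₆²`),
hence `P₈ ≡ Δ (mod 2)`; the same algebra at the other cusp (with `V_p E₄, V_p E₆, V_p Δ`) gives
`P̃₈ ≡ V_p Δ (mod 2)`.  `TwoCusp.false_of_congr` with `G = Δ`, `k = 8`.
Do the algebra ONCE as a lemma about power series `(F, E4, E6, Δ, G3, G5)` and apply it twice.
-/

set_option autoImplicit false

namespace Fermat.Agent.S16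

open UpperHalfPlane ModularForm CongruenceSubgroup ModularFormClass Fermat.Agent.S23
open scoped MatrixGroups ModularForm Manifold

namespace B2Two

/-- the algebra, in an arbitrary domain of characteristic zero. -/
theorem core {A : Type*} [CommRing A] [IsDomain A] [CharZero A] (S : Subring A)
    {v G3 G5 H D K M' : A} (hv : v ∈ S) (hG3 : G3 ∈ S) (hH : H ∈ S) (hD : D ∈ S)
    (hHe : 45 * G3 + 63 * G5 = 4 * H)
    (hDe : 1728 * D = (1 + 240 * G3) ^ 3 - (1 - 504 * G5) ^ 2)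
    (hK : 16 * K = (1 + 8 * v) ^ 2 - (1 + 240 * G3))
    (hM : 32 * M' = (1 + 8 * v) ^ 3 - 24 * ((1 + 8 * v) * K) - (1 - 504 * G5)) :
    ∃ C ∈ S, 3 * (K * K) + (1 + 8 * v) * M' = D + 2 * C := by
  have hK' : K = v + 4 * v ^ 2 - 15 * G3 := by
    have : (16 : A) * K = 16 * (v + 4 * v ^ 2 - 15 * G3) := by rw [hK]; ring
    exact mul_left_cancel₀ (by norm_num) this
  subst hK'
  have hM' : M' = -3 * v ^ 2 - 8 * v ^ 3 + 90 * (v * G3) + H := by
    have : (32 : A) * M' = 32 * (-3 * v ^ 2 - 8 * v ^ 3 + 90 * (v * G3) + H) := by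
      rw [hM]; linear_combination 8 * hHe
    exact mul_left_cancel₀ (by norm_num) this
  subst hM'
  have hF : 1 + 8 * v ∈ S := S.add_mem S.one_mem (S.mul_mem (ofNat_mem S 8) hv)
  have hKS : v + 4 * v ^ 2 - 15 * G3 ∈ S :=
    S.sub_mem (S.add_mem hv (S.mul_mem (ofNat_mem S 4) (S.pow_mem hv 2)))
      (S.mul_mem (ofNat_mem S 15) hG3)
  have hMS : -3 * v ^ 2 - 8 * v ^ 3 + 90 * (v * G3) + H ∈ S :=
    S.add_mem (S.add_mem (S.sub_mem (S.mul_mem (S.neg_mem (ofNat_mem S 3)) (S.pow_mem hv 2))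
      (S.mul_mem (ofNat_mem S 8) (S.pow_mem hv 3)))
      (S.mul_mem (ofNat_mem S 90) (S.mul_mem hv hG3))) hH
  set K := v + 4 * v ^ 2 - 15 * G3 with hKdef
  set M' := -3 * v ^ 2 - 8 * v ^ 3 + 90 * (v * G3) + H with hMdef
  set F := 1 + 8 * v with hFdef
  refine ⟨(3 * (K * K) + F * M') * (-8 * v - 32 * v ^ 2) + 12 * (F * K * M') + 32 * K ^ 3 +
    8 * M' ^ 2 + 13 * D, ?_, ?_⟩
  · refine S.add_mem (S.add_mem (S.add_mem (S.add_mem (S.mul_mem (S.add_mem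
      (S.mul_mem (ofNat_mem S 3) (S.mul_mem hKS hKS)) (S.mul_mem hF hMS))
      (S.sub_mem (S.mul_mem (S.neg_mem (ofNat_mem S 8)) hv)
      (S.mul_mem (ofNat_mem S 32) (S.pow_mem hv 2)))) (S.mul_mem (ofNat_mem S 12)
      (S.mul_mem (S.mul_mem hF hKS) hMS))) (S.mul_mem (ofNat_mem S 32) (S.pow_mem hKS 3)))
      (S.mul_mem (ofNat_mem S 8) (S.pow_mem hMS 2))) (S.mul_mem (ofNat_mem S 13) hD)
  · have h64 : (64 : A) * (3 * (K * K) + F * M') =
        64 * (D + 2 * ((3 * (K * K) + F * M') * (-8 * v - 32 * v ^ 2) + 12 * (F * K * M') +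
          32 * K ^ 3 + 8 * M' ^ 2 + 13 * D)) := by
      rw [hKdef, hMdef, hFdef]
      linear_combination (-1) * hDe +
        (64 * (4 * H - 45 * G3 - 63 * G5) - 16 * (1 - 504 * G5)) * hHe
    exact mul_left_cancel₀ (by norm_num) h64

/-- `K = (F² - E₄) / 16`. -/
noncomputable def Kof (F E4 : PowerSeries ℂ) : PowerSeries ℂ := (1 / 16 : ℂ) • (F * F - E4)

/-- `M' = (F³ - 24 F K - E₆) / 32`. -/
noncomputable def Mof (F E4 E6 : PowerSeries ℂ) : PowerSeries ℂ :=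
  (1 / 32 : ℂ) • (F * F * F - (24 : ℂ) • (F * Kof F E4) - E6)

/-- `P₈ = 3 K² + F M'`. -/
noncomputable def Pof (F E4 E6 : PowerSeries ℂ) : PowerSeries ℂ :=
  (3 : ℂ) • (Kof F E4 * Kof F E4) + F * Mof F E4 E6

theorem twoCusp_Pof {p : ℕ} {F Ft E4 E4t E6 E6t : PowerSeries ℂ} (hF : TwoCusp p 2 F Ft)
    (h4 : TwoCusp p 4 E4 E4t) (h6 : TwoCusp p 6 E6 E6t) :
    TwoCusp p 8 (Pof F E4 E6) (Pof Ft E4t E6t) := by
  have hFF := hF.mul hF (show (2 : ℤ) + 2 = 4 by norm_num)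
  have hK := (hFF.sub h4).smul (1 / 16 : ℂ)
  have hFFF := hFF.mul hF (show (4 : ℤ) + 2 = 6 by norm_num)
  have hFK := (hF.mul hK (show (2 : ℤ) + 4 = 6 by norm_num)).smul (24 : ℂ)
  have hM := ((hFFF.sub hFK).sub h6).smul (1 / 32 : ℂ)
  have hKK := (hK.mul hK (show (4 : ℤ) + 4 = 8 by norm_num)).smul (3 : ℂ)
  have hFM := hF.mul hM (show (2 : ℤ) + 6 = 8 by norm_num)
  exact hKK.add hFM

theorem C_ofNat (n : ℕ) [n.AtLeastTwo] :
    PowerSeries.C (OfNat.ofNat n : ℂ) = (OfNat.ofNat n : PowerSeries ℂ) := map_ofNat _ n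

theorem Pof_congr (R : Subring ℂ) {v G3 G5 H D : PowerSeries ℂ} (hv : v ∈ seriesIn R)
    (hG3 : G3 ∈ seriesIn R) (hH : H ∈ seriesIn R) (hD : D ∈ seriesIn R)
    (hHe : 45 * G3 + 63 * G5 = 4 * H)
    (hDe : 1728 * D = (1 + 240 * G3) ^ 3 - (1 - 504 * G5) ^ 2) :
    ∃ C ∈ seriesIn R, Pof (1 + 8 * v) (1 + 240 * G3) (1 - 504 * G5) = D + ((2 : ℕ) : ℂ) • C := by
  have : CharZero (PowerSeries ℂ) :=
    charZero_of_injective_ringHom (f := (PowerSeries.C : ℂ →+* PowerSeries ℂ))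
      PowerSeries.C_injective
  have e16 : (16 : PowerSeries ℂ) * PowerSeries.C (1 / 16 : ℂ) = 1 := by
    rw [← C_ofNat, ← map_mul]; norm_num
  have e32 : (32 : PowerSeries ℂ) * PowerSeries.C (1 / 32 : ℂ) = 1 := by
    rw [← C_ofNat, ← map_mul]; norm_num
  obtain ⟨C, hC, hCe⟩ := core (seriesIn R) (K := Kof (1 + 8 * v) (1 + 240 * G3))
    (M' := Mof (1 + 8 * v) (1 + 240 * G3) (1 - 504 * G5)) hv hG3 hH hD hHe hDe
    (by
      unfold Kof
      rw [PowerSeries.smul_eq_C_mul]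
      linear_combination ((1 + 8 * v) * (1 + 8 * v) - (1 + 240 * G3)) * e16)
    (by
      unfold Mof
      rw [PowerSeries.smul_eq_C_mul, PowerSeries.smul_eq_C_mul, C_ofNat]
      linear_combination ((1 + 8 * v) * (1 + 8 * v) * (1 + 8 * v) -
        24 * ((1 + 8 * v) * Kof (1 + 8 * v) (1 + 240 * G3)) - (1 - 504 * G5)) * e32)
  refine ⟨C, hC, ?_⟩
  unfold Pof
  rw [PowerSeries.smul_eq_C_mul, PowerSeries.smul_eq_C_mul, C_ofNat, Nat.cast_ofNat, C_ofNat]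
  exact hCe

/-- `V_p` as a ring homomorphism. -/
noncomputable def VpHom {p : ℕ} (hp : 0 < p) : PowerSeries ℂ →+* PowerSeries ℂ where
  toFun := Vp p
  map_one' := Vp_one hp
  map_mul' := Vp_mul hp
  map_zero' := by
    have h := Vp_smul p 0 0
    simpa using h
  map_add' := Vp_add p

theorem VpHom_apply {p : ℕ} (hp : 0 < p) (x : PowerSeries ℂ) : VpHom hp x = Vp p x := rfl

end B2Two

open B2Two EisensteinSeries

variable {p : ℕ} [Fact p.Prime] {M : ℕ}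

theorem upper_B2_two (hp : 5 ≤ p) {u : PowerSeries ℂ} (hu : UpperData p M u)
    (hdvd : 8 ∣ p + 1) : ¬ 2 ∣ M := by
  rintro ⟨M₁, rfl⟩
  obtain ⟨t, ht⟩ := hdvd
  obtain ⟨R, hR2, hRinv, hRζ⟩ := exists_good_subring 2 Nat.prime_two
  have hp0 : 0 < p := by omega
  obtain ⟨m, hm⟩ : ∃ m, m = 4 * t - 1 := ⟨_, rfl⟩
  have hpm : p = 2 * m + 1 := by omega
  have hmodd : ¬ 2 ∣ m := by omega
  have hpodd : ¬ 2 ∣ p := by omega
  have hmR := hRinv m hmodd
  have hpR := hRinv p hpodd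
  have hm0 : (m : ℂ) ≠ 0 := by
    have : m ≠ 0 := by omega
    exact_mod_cast this
  have hpC : (p : ℂ) ≠ 0 := by exact_mod_cast hp0.ne'
  have hpmC : (p : ℂ) = 2 * m + 1 := by exact_mod_cast hpm
  have htC : (p : ℂ) + 1 = 8 * t := by exact_mod_cast ht
  -- the constants
  have hc : cEis p = (m : ℂ) / 12 := by
    unfold cEis; rw [hpmC]; ring
  have hc0 : cEis p ≠ 0 := by rw [hc]; exact div_ne_zero hm0 (by norm_num)
  set c := cEis p with hcdef
  set w : ℂ := 3 * (M₁ : ℂ) * (m : ℂ)⁻¹ with hw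
  set w₂ : ℂ := -(t : ℂ) * (p : ℂ)⁻¹ with hw₂
  have hwR : w ∈ R := R.mul_mem (R.mul_mem (ofNat_mem R 3) (natCast_mem R M₁)) hmR
  have hw₂R : w₂ ∈ R := R.mul_mem (R.neg_mem (natCast_mem R t)) hpR
  have e1 : PowerSeries.C c⁻¹ * PowerSeries.C c = 1 := by
    rw [← map_mul, inv_mul_cancel₀ hc0, map_one]
  have e2 : PowerSeries.C c⁻¹ * PowerSeries.C (((2 * M₁ : ℕ) : ℂ)) = 8 * PowerSeries.C w := by
    rw [← map_mul, ← C_ofNat, ← map_mul]
    congr 1
    rw [hc, hw]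
    push_cast
    field_simp
    ring
  have e3 : PowerSeries.C (-(p : ℂ)⁻¹) = 1 + 8 * PowerSeries.C w₂ := by
    rw [← C_ofNat, ← map_mul, ← map_one PowerSeries.C, ← map_add]
    congr 1
    rw [hw₂]
    field_simp
    linear_combination (-1 : ℂ) * htC
  -- the form `F`
  have hF := hu.twoCusp.smul c⁻¹
  have hF1 : c⁻¹ • (PowerSeries.C c + ((2 * M₁ : ℕ) : ℂ) • u) = 1 + 8 * (w • u) := by
    simp only [PowerSeries.smul_eq_C_mul]
    linear_combination e1 + u * e2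
  have hF2 : c⁻¹ • ((-(p : ℂ)⁻¹) • (PowerSeries.C c + ((2 * M₁ : ℕ) : ℂ) • Up p u)) =
      1 + 8 * (PowerSeries.C w₂ + (-(p : ℂ)⁻¹) • (w • Up p u)) := by
    simp only [PowerSeries.smul_eq_C_mul]
    linear_combination PowerSeries.C (-(p : ℂ)⁻¹) * e1 +
      (PowerSeries.C (-(p : ℂ)⁻¹) * Up p u) * e2 + e3
  rw [hF1, hF2] at hF
  have hv : w • u ∈ seriesIn R := smul_mem_seriesIn hwR (intSeries_le_seriesIn R hu.int)
  have hv' : PowerSeries.C w₂ + (-(p : ℂ)⁻¹) • (w • Up p u) ∈ seriesIn R :=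
    (seriesIn R).add_mem (C_mem_seriesIn hw₂R) (smul_mem_seriesIn (R.neg_mem hpR)
      (smul_mem_seriesIn hwR (intSeries_le_seriesIn R (Up_mem_intSeries p hu.int))))
  -- level one
  obtain ⟨C₀, hC₀⟩ := exists_twelve_mul_eq
  set φ := PowerSeries.map (Int.castRingHom ℂ) with hφ
  set G3 := φ (sigSeries 3) with hG3def
  set G5 := φ (sigSeries 5) with hG5def
  set H := 27 * φ C₀ with hHdef
  set D := qExpansion 1 ModularForm.discriminant with hDdef
  have hG3 : G3 ∈ seriesIn R := intSeries_le_seriesIn R ⟨_, rfl⟩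
  have hH : H ∈ seriesIn R :=
    (seriesIn R).mul_mem (ofNat_mem _ 27) (intSeries_le_seriesIn R ⟨_, rfl⟩)
  have hD : D ∈ seriesIn R := intSeries_le_seriesIn R discriminant_qExpansion_int
  have hE4 : qExpansion 1 E₄ = 1 + 240 * G3 := by
    rw [E4_qExpansion_eq, map_add, map_mul, map_one, map_intCast]
    show 1 + ((240 : ℤ) : PowerSeries ℂ) * G3 = 1 + 240 * G3
    push_cast
    ring
  have hE6 : qExpansion 1 E₆ = 1 - 504 * G5 := by
    rw [E6_qExpansion_eq, map_add, map_mul, map_one, map_intCast]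
    show 1 + ((-504 : ℤ) : PowerSeries ℂ) * G5 = 1 - 504 * G5
    push_cast
    ring
  have hHe : 45 * G3 + 63 * G5 = 4 * H := by
    have h := congrArg φ hC₀
    simp only [map_add, map_mul, map_ofNat] at h
    rw [hHdef]
    linear_combination 9 * h
  have hDe : 1728 * D = (1 + 240 * G3) ^ 3 - (1 - 504 * G5) ^ 2 := by
    rw [← hE4, ← hE6]; exact discriminant_qExpansion_mul
  have h4 := TwoCusp.of_levelOne (p := p) E₄
  have h6 := TwoCusp.of_levelOne (p := p) E₆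
  have hVE4 : Vp p (qExpansion 1 E₄) = 1 + 240 * Vp p G3 := by
    have h := congrArg (VpHom hp0) hE4
    simpa only [map_add, map_mul, map_ofNat, map_one, VpHom_apply] using h
  have hVE6 : Vp p (qExpansion 1 E₆) = 1 - 504 * Vp p G5 := by
    have h := congrArg (VpHom hp0) hE6
    simpa only [map_sub, map_mul, map_ofNat, map_one, VpHom_apply] using h
  have hVHe : 45 * Vp p G3 + 63 * Vp p G5 = 4 * Vp p H := by
    have h := congrArg (VpHom hp0) hHe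
    simpa only [map_add, map_mul, map_ofNat, VpHom_apply] using h
  have hVDe : 1728 * Vp p D = (1 + 240 * Vp p G3) ^ 3 - (1 - 504 * Vp p G5) ^ 2 := by
    have h := congrArg (VpHom hp0) hDe
    simpa only [map_add, map_sub, map_pow, map_mul, map_ofNat, map_one, VpHom_apply] using h
  rw [hE4, ← hE4, hVE4, hE4] at h4
  rw [hE6, ← hE6, hVE6, hE6] at h6
  have hP := twoCusp_Pof hF h4 h6
  refine hP.false_of_congr (by norm_num) R 2 hR2 (fun z hz => hRζ p z hp0 hz) D hD ?_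
    discriminant_qExpansion_coeff_one (Pof_congr R hv hG3 hH hD hHe hDe)
    (Pof_congr R hv' (Vp_mem_seriesIn p hG3) (Vp_mem_seriesIn p hH) (Vp_mem_seriesIn p hD)
      hVHe hVDe)
  exact PowerSeries.coeff_of_lt_order _ (by rw [discriminant_qExpansion_order]; exact zero_lt_one)

end Fermat.Agent.S16
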