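import Fermat.Agent.S16.Upper.B1
import Fermat.Agent.S16.Upper.B2Odd
import Fermat.Agent.S16.Upper.B2Two
import Fermat.Agent.S16.Upper.Arith

/-!
# S16 upper bound: assembly
-/

set_option autoImplicit false

namespace Fermat.Agent.S16

open UpperHalfPlane ModularForm CongruenceSubgroup ModularFormClass Fermat.Agent.S23

theorem upper_bound {p : ℕ} [hp : Fact p.Prime] (h5 : 5 ≤ p) {M : ℕ}
    {f : CuspForm (Gamma0 p) 2} (hf : IsCongEis p M f) :
    M ∣ (p - 1) / Nat.gcd (p - 1) 12 := by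
  obtain ⟨u, hu, a, ha, ha0, ha1, hT, hUU⟩ := exists_upperData hf
  exact upper_arith hp.out h5 (upper_B1 h5 hu ha ha0 ha1 hT hUU)
    (fun ℓ hℓ hℓ5 hd => upper_B2_ge_five h5 hu hℓ hℓ5 hd)
    (upper_B2_three h5 hu) (upper_B2_two h5 hu)

end Fermat.Agent.S16
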