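import Fermat.Agent.S16.Upper.Setup

/-!
# S16 upper bound, package PKG-8: `M ∣ (p² - 1) / 24`

`g f` has weight 4 and vanishes at both cusps, so its trace to level one is `0`
(`TwoCusp.mul`, `TwoCusp.trace_eq_zero`):  `A_g A_f + (1/p) U_p (U_p A_g * U_p A_f) = 0`.
Coefficient of `q¹`:  `c a₁ + (1/p) (c a_{p²} + M Z) = 0` with `Z ∈ ℤ`, and `a_{p²} = a₁`, so
`(p² - 1) a₁ = - 24 M Z`; finally `a₁ = 1 + M m` and `24 ∣ p² - 1`.
-/

set_option autoImplicit false

namespace Fermat.Agent.S16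

open UpperHalfPlane ModularForm CongruenceSubgroup ModularFormClass Fermat.Agent.S23
open scoped MatrixGroups ModularForm Manifold

variable {p : ℕ} [Fact p.Prime] {M : ℕ}

theorem upper_B1 (hp : 5 ≤ p) {u : PowerSeries ℂ} (hu : UpperData p M u)
    {a : PowerSeries ℂ} (ha : a ∈ intSeries) (ha0 : PowerSeries.coeff 0 a = 0)
    (ha1 : ∃ m : ℤ, PowerSeries.coeff 1 a = 1 + (M : ℂ) * m)
    (hT : TwoCusp p 2 a ((-(p : ℂ)⁻¹) • Up p a)) (hUU : Up p (Up p a) = a) :
    M ∣ (p ^ 2 - 1) / 24 := by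
  have hpp : p.Prime := Fact.out
  have hp0 : (p : ℂ) ≠ 0 := by exact_mod_cast hpp.ne_zero
  -- the product has trace zero
  have hmul := hu.twoCusp.mul hT (k'' := 4) (by norm_num)
  have hUa0 : PowerSeries.coeff 0 (Up p a) = 0 := by rw [coeff_Up, mul_zero, ha0]
  have htr := hmul.trace_eq_zero (by norm_num) (by
    simp only [PowerSeries.coeff_zero_eq_constantCoeff, map_mul] at ha0 hUa0 ⊢
    rw [ha0, PowerSeries.constantCoeff_smul (Up p a), hUa0]
    simp)
  -- integrality of `Z`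
  obtain ⟨Z, hZ⟩ := (mem_intSeries_iff.mp
    (intSeries.mul_mem (Up_mem_intSeries p hu.int) (Up_mem_intSeries p ha))) p
  obtain ⟨m, hm⟩ := ha1
  -- coefficient of `q`
  have h1 := congrArg (PowerSeries.coeff 1) htr
  have hA : PowerSeries.coeff 1 ((PowerSeries.C (cEis p) + (M : ℂ) • u) * a)
      = cEis p * PowerSeries.coeff 1 a := by
    rw [add_mul, map_add, PowerSeries.coeff_C_mul, smul_mul_assoc, PowerSeries.coeff_smul,
      PowerSeries.coeff_mul, Finset.Nat.antidiagonal_succ]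
    simp [hu.coeff_zero, ha0]
  have hpp2 : PowerSeries.coeff p (Up p a) = PowerSeries.coeff 1 a := by
    have := congrArg (PowerSeries.coeff 1) hUU
    rwa [coeff_Up, mul_one] at this
  have hB : PowerSeries.coeff 1 (Up p (((-(p : ℂ)⁻¹) • (PowerSeries.C (cEis p) + (M : ℂ) • Up p u))
      * ((-(p : ℂ)⁻¹) • Up p a)))
      = ((p : ℂ)⁻¹) ^ 2 * (cEis p * PowerSeries.coeff 1 a + (M : ℂ) * Z) := by
    rw [coeff_Up, mul_one, smul_mul_smul_comm, PowerSeries.coeff_smul, add_mul, map_add,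
      PowerSeries.coeff_C_mul, smul_mul_assoc, PowerSeries.coeff_smul, hZ, hpp2]
    simp only [smul_eq_mul]
    ring
  rw [map_add, PowerSeries.coeff_smul, hA, hB, map_zero, hm, smul_eq_mul] at h1
  -- arithmetic
  have h24 : 24 ∣ p ^ 2 - 1 := by
    have hodd : p % 2 = 1 := hpp.eq_two_or_odd.resolve_left (by omega)
    have h3 : p % 3 ≠ 0 := fun h => by
      have := (Nat.prime_dvd_prime_iff_eq Nat.prime_three hpp).mp (Nat.dvd_of_mod_eq_zero h)
      omega
    have hmod : p ^ 2 % 24 = 1 := by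
      have : p % 24 = 1 ∨ p % 24 = 5 ∨ p % 24 = 7 ∨ p % 24 = 11 ∨ p % 24 = 13 ∨ p % 24 = 17 ∨
          p % 24 = 19 ∨ p % 24 = 23 := by omega
      rw [Nat.pow_mod]
      rcases this with h | h | h | h | h | h | h | h <;> rw [h]
    omega
  obtain ⟨D, hD⟩ := h24
  rw [hD, Nat.mul_div_cancel_left _ (by norm_num)]
  have hDC : ((p : ℂ) - 1) * ((p : ℂ) + 1) = 24 * (D : ℂ) := by
    have h2 : p ^ 2 = 24 * D + 1 := by
      have : 1 ≤ p ^ 2 := Nat.one_le_pow _ _ hpp.pos
      omega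
    have h3 : ((p : ℂ)) ^ 2 = 24 * (D : ℂ) + 1 := by exact_mod_cast h2
    linear_combination h3
  have h5 : (D : ℂ) * (1 + (M : ℂ) * m) + (M : ℂ) * Z = 0 := by
    unfold cEis at h1
    field_simp at h1
    have h24' : (24 : ℂ) * ((D : ℂ) * (1 + (M : ℂ) * m) + (M : ℂ) * Z) = 0 := by
      linear_combination h1 - (1 + (M : ℂ) * m) * hDC
    exact (mul_eq_zero.mp h24').resolve_left (by norm_num)
  have h6 : (D : ℤ) = (M : ℤ) * (-(Z + D * m)) := by
    have : ((D : ℤ) : ℂ) = (((M : ℤ) * (-(Z + D * m)) : ℤ) : ℂ) := by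
      push_cast
      linear_combination h5
    exact_mod_cast this
  exact Int.natCast_dvd_natCast.mp ⟨_, h6⟩

end Fermat.Agent.S16
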