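import Fermat.Agent.S16.Upper.Setup
import Fermat.Agent.S16.Core.Norm

/-!
# S16 upper bound: uniform treatment of the primes dividing `p + 1` (idea of helper94)

`P₈ = G⁴ - 6 G² E₄ + 8 G E₆ - 3 E₄²` (weight 8).  With `G = 1 + x`, `E₄ = 1 + 240 s₃`,
`E₆ = 1 - 504 s₅`:
`P₈ = -6912 B + [x⁴ + 4x³ - 1440 s₃ (2x + x²) - 4032 s₅ x]`, `B = (5 s₃ + 7 s₅)/12 + 25 s₃² = q + …`.
If `x = 12 ℓ y` the bracket is `6912 ℓ (3ℓ³y⁴ + ℓ²y³ - 5 s₃ y - 30 ℓ s₃ y² - 7 s₅ y)`.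
-/

set_option autoImplicit false
set_option linter.unusedSectionVars false

namespace Fermat.Agent.S16

open UpperHalfPlane ModularForm CongruenceSubgroup ModularFormClass Fermat.Agent.S23
open EisensteinSeries
open scoped MatrixGroups ModularForm Manifold

/-- the formal identity. -/
theorem b2u_identity (ℓ : ℂ) (y s3 s5 Bc : PowerSeries ℂ) (hB : 5 * s3 + 7 * s5 = 12 * Bc) :
    ((-6912 : ℂ)⁻¹) •
      ((1 + (12 * ℓ) • y) ^ 4 - 6 * (1 + (12 * ℓ) • y) ^ 2 * (1 + 240 * s3)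
        + 8 * (1 + (12 * ℓ) • y) * (1 + (-504) * s5) - 3 * (1 + 240 * s3) ^ 2) =
      (Bc + 25 * s3 ^ 2) + ℓ • (-(3 * (ℓ ^ 3) • y ^ 4 + (ℓ ^ 2) • y ^ 3 - 5 * s3 * y
        - 30 * ℓ • (s3 * y ^ 2) - 7 * s5 * y)) := by
  have h6912 : (PowerSeries.C (-6912 : ℂ)) = (-6912 : PowerSeries ℂ) := by
    rw [map_neg, map_ofNat]
  have key : ((1 + (12 * ℓ) • y) ^ 4 - 6 * (1 + (12 * ℓ) • y) ^ 2 * (1 + 240 * s3)
        + 8 * (1 + (12 * ℓ) • y) * (1 + (-504) * s5) - 3 * (1 + 240 * s3) ^ 2) =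
      (-6912 : ℂ) • ((Bc + 25 * s3 ^ 2) + ℓ • (-(3 * (ℓ ^ 3) • y ^ 4 + (ℓ ^ 2) • y ^ 3 - 5 * s3 * y
        - 30 * ℓ • (s3 * y ^ 2) - 7 * s5 * y))) := by
    simp only [PowerSeries.smul_eq_C_mul, map_mul, map_pow, h6912]
    have h12 : (PowerSeries.C (12 : ℂ)) = (12 : PowerSeries ℂ) := map_ofNat _ 12
    rw [h12]
    linear_combination (-576 : PowerSeries ℂ) * hB
  rw [key, smul_smul]
  norm_num

variable {p : ℕ} [Fact p.Prime] {M : ℕ}

/-- the weight 8 form `P₈`. -/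
theorem TwoCusp.b2u_P8 {G G' E4 E4' E6 E6' : PowerSeries ℂ} (hG : TwoCusp p 2 G G')
    (h4 : TwoCusp p 4 E4 E4') (h6 : TwoCusp p 6 E6 E6') :
    TwoCusp p 8 (G ^ 4 - 6 * G ^ 2 * E4 + 8 * G * E6 - 3 * E4 ^ 2)
      (G' ^ 4 - 6 * G' ^ 2 * E4' + 8 * G' * E6' - 3 * E4' ^ 2) := by
  have hG2 := hG.mul hG (show (2 : ℤ) + 2 = 4 by norm_num)
  have hG4 := hG2.mul hG2 (show (4 : ℤ) + 4 = 8 by norm_num)
  have t2 := (hG2.mul h4 (show (4 : ℤ) + 4 = 8 by norm_num)).smul 6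
  have t3 := (hG.mul h6 (show (2 : ℤ) + 6 = 8 by norm_num)).smul 8
  have t4 := (h4.mul h4 (show (4 : ℤ) + 4 = 8 by norm_num)).smul 3
  have e : ∀ a b c : PowerSeries ℂ, a * a * (a * a) - (6 : ℂ) • (a * a * b) + (8 : ℂ) • (a * c)
      - (3 : ℂ) • (b * b) = a ^ 4 - 6 * a ^ 2 * b + 8 * a * c - 3 * b ^ 2 := by
    intro a b c
    simp only [PowerSeries.smul_eq_C_mul, map_ofNat]
    ring
  have := ((hG4.sub t2).add t3).sub t4
  rwa [e, e] at this

lemma b2u_Vp_C_mul (c : ℂ) (A : PowerSeries ℂ) :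
    Vp p (PowerSeries.C c * A) = PowerSeries.C c * Vp p A := by
  rw [← PowerSeries.smul_eq_C_mul, Vp_smul, PowerSeries.smul_eq_C_mul]

lemma b2u_Vp_ofNat_mul (n : ℕ) [n.AtLeastTwo] (A : PowerSeries ℂ) :
    Vp p ((OfNat.ofNat n : PowerSeries ℂ) * A) = (OfNat.ofNat n : PowerSeries ℂ) * Vp p A := by
  rw [← map_ofNat (PowerSeries.C (R := ℂ)) n, b2u_Vp_C_mul]

/-- **Uniform B2.** -/
theorem upper_B2_uniform (hp : 5 ≤ p) {u : PowerSeries ℂ} (hu : UpperData p M u) {ℓ : ℕ}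
    (R : Subring ℂ) (hR1 : ((ℓ : ℂ))⁻¹ ∉ R) (hRζ : ∀ z : ℂ, z ^ p = 1 → z ∈ R)
    (hρ : (M : ℂ) / cEis p / (12 * ℓ) ∈ R) (hκ : ((p : ℂ) + 1) / (12 * ℓ * p) ∈ R)
    (hpinv : ((p : ℂ))⁻¹ ∈ R) : False := by
  have hp0 : 0 < p := by omega
  have hpc : (p : ℂ) ≠ 0 := by exact_mod_cast hp0.ne'
  have hℓ0 : (ℓ : ℂ) ≠ 0 := by
    intro h
    apply hR1
    rw [h, inv_zero]
    exact R.zero_mem
  have hc : cEis p ≠ 0 := by
    unfold cEis
    have : (p : ℂ) - 1 ≠ 0 := by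
      have h1 : ((p : ℂ) - 1) = ((p - 1 : ℕ) : ℂ) := by
        rw [Nat.cast_sub (by omega)]; simp
      rw [h1]
      exact_mod_cast (by omega : p - 1 ≠ 0)
    exact div_ne_zero this (by norm_num)
  set ρ : ℂ := (M : ℂ) / cEis p / (12 * ℓ) with hρdef
  set κ : ℂ := ((p : ℂ) + 1) / (12 * ℓ * p) with hκdef
  set y : PowerSeries ℂ := ρ • u with hy
  set y' : PowerSeries ℂ := -(PowerSeries.C κ + (ρ * (p : ℂ)⁻¹) • Up p u) with hy'
  have huR : u ∈ seriesIn R := intSeries_le_seriesIn R hu.int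
  have hyR : y ∈ seriesIn R := smul_mem_seriesIn hρ huR
  have hy'R : y' ∈ seriesIn R :=
    neg_mem (add_mem (C_mem_seriesIn hκ)
      (smul_mem_seriesIn (R.mul_mem hρ hpinv) (Up_mem_seriesIn p huR)))
  -- the form `F = g / c`
  have hF : TwoCusp p 2 (1 + (12 * (ℓ : ℂ)) • y) (1 + (12 * (ℓ : ℂ)) • y') := by
    have h := hu.twoCusp.smul (cEis p)⁻¹
    have e1 : (cEis p)⁻¹ • (PowerSeries.C (cEis p) + (M : ℂ) • u) = 1 + (12 * (ℓ : ℂ)) • y := by
      ext n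
      simp only [hy, hρdef, map_add, PowerSeries.coeff_smul, PowerSeries.coeff_C,
        PowerSeries.coeff_one, smul_eq_mul]
      split_ifs
      · field_simp
      · field_simp
        ring
    have e2 : (cEis p)⁻¹ • ((-(p : ℂ)⁻¹) • (PowerSeries.C (cEis p) + (M : ℂ) • Up p u)) =
        1 + (12 * (ℓ : ℂ)) • y' := by
      ext n
      simp only [hy', hρdef, hκdef, map_add, map_neg, PowerSeries.coeff_smul, PowerSeries.coeff_C,
        PowerSeries.coeff_one, smul_eq_mul]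
      split_ifs <;> field_simp <;> ring
    rwa [e1, e2] at h
  -- level one forms
  obtain ⟨Cz, hCz⟩ := exists_twelve_mul_eq
  set ι := PowerSeries.map (Int.castRingHom ℂ) with hι
  set s3 : PowerSeries ℂ := ι (sigSeries 3) with hs3
  set s5 : PowerSeries ℂ := ι (sigSeries 5) with hs5
  set Bc : PowerSeries ℂ := ι Cz with hBc
  have hB : 5 * s3 + 7 * s5 = 12 * Bc := by
    have := congrArg ι hCz
    simpa only [map_add, map_mul, map_ofNat] using this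
  have hs3R : s3 ∈ seriesIn R := intSeries_le_seriesIn R ⟨_, rfl⟩
  have hs5R : s5 ∈ seriesIn R := intSeries_le_seriesIn R ⟨_, rfl⟩
  have hBcR : Bc ∈ seriesIn R := intSeries_le_seriesIn R ⟨_, rfl⟩
  have hE4 : qExpansion 1 E₄ = 1 + 240 * s3 := by
    rw [E4_qExpansion_eq]
    simp only [map_add, map_mul, map_one, map_intCast, hs3, hι]
    norm_num
  have hE6 : qExpansion 1 E₆ = 1 + (-504) * s5 := by
    rw [E6_qExpansion_eq]
    simp only [map_add, map_mul, map_one, map_intCast, hs5, hι]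
    norm_num
  have h4 : TwoCusp p 4 (1 + 240 * s3) (1 + 240 * Vp p s3) := by
    have := TwoCusp.of_levelOne (p := p) E₄
    rwa [hE4, Vp_add, Vp_one hp0, b2u_Vp_ofNat_mul] at this
  have h6 : TwoCusp p 6 (1 + (-504) * s5) (1 + (-504) * Vp p s5) := by
    have := TwoCusp.of_levelOne (p := p) E₆
    have e : Vp p ((-504 : PowerSeries ℂ) * s5) = (-504) * Vp p s5 := by
      have h504 : (-504 : PowerSeries ℂ) = PowerSeries.C (-504 : ℂ) := by
        rw [map_neg, map_ofNat]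
      rw [h504, b2u_Vp_C_mul]
    rwa [hE6, Vp_add, Vp_one hp0, e] at this
  have hB' : 5 * Vp p s3 + 7 * Vp p s5 = 12 * Vp p Bc := by
    have := congrArg (Vp p) hB
    rwa [Vp_add, b2u_Vp_ofNat_mul, b2u_Vp_ofNat_mul, b2u_Vp_ofNat_mul] at this
  have hP := (TwoCusp.b2u_P8 hF h4 h6).smul ((-6912 : ℂ)⁻¹)
  rw [b2u_identity _ _ _ _ _ hB, b2u_identity _ _ _ _ _ hB'] at hP
  have hℓR : (ℓ : ℂ) ∈ R := natCast_mem R ℓ
  have hmem : ∀ (y s3 s5 : PowerSeries ℂ), y ∈ seriesIn R → s3 ∈ seriesIn R → s5 ∈ seriesIn R →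
      (-(3 * ((ℓ : ℂ) ^ 3) • y ^ 4 + ((ℓ : ℂ) ^ 2) • y ^ 3 - 5 * s3 * y
        - 30 * (ℓ : ℂ) • (s3 * y ^ 2) - 7 * s5 * y)) ∈ seriesIn R := by
    intro y s3 s5 hy h3 h5
    have hnum : ∀ n : ℕ, (n : PowerSeries ℂ) ∈ seriesIn R := fun n => natCast_mem _ n
    refine neg_mem (sub_mem (sub_mem (sub_mem (add_mem ?_ ?_) ?_) ?_) ?_)
    · exact mul_mem (by exact_mod_cast hnum 3) (smul_mem_seriesIn (pow_mem hℓR 3) (pow_mem hy 4))
    · exact smul_mem_seriesIn (pow_mem hℓR 2) (pow_mem hy 3)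
    · exact mul_mem (mul_mem (by exact_mod_cast hnum 5) h3) hy
    · exact mul_mem (by exact_mod_cast hnum 30) (smul_mem_seriesIn hℓR (mul_mem h3 (pow_mem hy 2)))
    · exact mul_mem (mul_mem (by exact_mod_cast hnum 7) h5) hy
  have hVG : Vp p (Bc + 25 * s3 ^ 2) = Vp p Bc + 25 * Vp p s3 ^ 2 := by
    rw [Vp_add, b2u_Vp_ofNat_mul, pow_two, Vp_mul hp0, pow_two]
  have h25 : (25 : PowerSeries ℂ) = PowerSeries.C (25 : ℂ) := (map_ofNat _ 25).symm
  have hco : ∀ n, 5 * PowerSeries.coeff n s3 + 7 * PowerSeries.coeff n s5 =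
      12 * PowerSeries.coeff n Bc := by
    intro n
    have := congrArg (PowerSeries.coeff n) hB
    rw [map_add, ← map_ofNat (PowerSeries.C (R := ℂ)) 5, ← map_ofNat (PowerSeries.C (R := ℂ)) 7,
      ← map_ofNat (PowerSeries.C (R := ℂ)) 12, PowerSeries.coeff_C_mul, PowerSeries.coeff_C_mul,
      PowerSeries.coeff_C_mul] at this
    exact this
  have hc3 : ∀ n, PowerSeries.coeff n s3 = ((ArithmeticFunction.sigma 3 n : ℤ) : ℂ) := by
    intro n
    simp [hs3, hι, sigSeries]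
  have hc5 : ∀ n, PowerSeries.coeff n s5 = ((ArithmeticFunction.sigma 5 n : ℤ) : ℂ) := by
    intro n
    simp [hs5, hι, sigSeries]
  have c30 : PowerSeries.coeff 0 s3 = 0 := by rw [hc3]; simp
  have c50 : PowerSeries.coeff 0 s5 = 0 := by rw [hc5]; simp
  have c31 : PowerSeries.coeff 1 s3 = 1 := by rw [hc3]; simp
  have c51 : PowerSeries.coeff 1 s5 = 1 := by rw [hc5]; simp
  have hb0 : PowerSeries.coeff 0 Bc = 0 := by
    have := hco 0
    rw [c30, c50] at this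
    linear_combination (-1 / 12 : ℂ) * this
  have hb1 : PowerSeries.coeff 1 Bc = 1 := by
    have := hco 1
    rw [c31, c51] at this
    linear_combination (-1 / 12 : ℂ) * this
  refine hP.false_of_congr (by norm_num) R ℓ hR1 hRζ (Bc + 25 * s3 ^ 2) ?_ ?_ ?_
    ⟨_, hmem y s3 s5 hyR hs3R hs5R, rfl⟩
    ⟨_, hmem y' _ _ hy'R (Vp_mem_seriesIn p hs3R) (Vp_mem_seriesIn p hs5R), by rw [hVG]⟩
  · exact add_mem hBcR (mul_mem (by exact_mod_cast (natCast_mem (seriesIn R) 25)) (pow_mem hs3R 2))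
  · rw [map_add, h25, PowerSeries.coeff_C_mul, pow_two,
      PowerSeries.coeff_zero_eq_constantCoeff_apply (s3 * s3), map_mul,
      ← PowerSeries.coeff_zero_eq_constantCoeff_apply, c30, hb0]
    ring
  · rw [map_add, h25, PowerSeries.coeff_C_mul, pow_two, PowerSeries.coeff_one_mul,
      ← PowerSeries.coeff_zero_eq_constantCoeff_apply, c30, hb1]
    ring

/-- arithmetic form of the uniform statement. -/
theorem b2u_of_nat (hp : 5 ≤ p) {u : PowerSeries ℂ} (hu : UpperData p M u) {ℓ : ℕ}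
    (hℓ : ℓ.Prime) (h1 : ¬ ℓ ∣ (p - 1) / 2) (hℓp : ℓ ≠ p) (a b : ℕ) (hb : ¬ ℓ ∣ b)
    (hab : (p + 1) * b = 12 * ℓ * p * a) : ¬ ℓ ∣ M := by
  rintro ⟨m, rfl⟩
  have hpp : p.Prime := Fact.out
  obtain ⟨R, hR1, hR2, hR3⟩ := exists_good_subring ℓ hℓ
  have hp0 : 0 < p := by omega
  have hpc : (p : ℂ) ≠ 0 := by exact_mod_cast hp0.ne'
  have hℓc : (ℓ : ℂ) ≠ 0 := by exact_mod_cast hℓ.ne_zero
  have hodd : p % 2 = 1 := by
    rcases hpp.eq_two_or_odd with h | h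
    · omega
    · exact h
  obtain ⟨h, hh⟩ : ∃ h, p = 2 * h + 1 := ⟨p / 2, by omega⟩
  have hh2 : (p - 1) / 2 = h := by omega
  rw [hh2] at h1
  have hhc : (h : ℂ) ≠ 0 := by
    have : h ≠ 0 := by omega
    exact_mod_cast this
  have hbc : (b : ℂ) ≠ 0 := by
    have : b ≠ 0 := by
      rintro rfl
      exact hb (dvd_zero _)
    exact_mod_cast this
  refine upper_B2_uniform hp hu R hR1 (fun z hz => hR3 p z hp0 hz) ?_ ?_ ?_
  · have : ((ℓ * m : ℕ) : ℂ) / cEis p / (12 * ℓ) = (m : ℂ) * ((h : ℂ))⁻¹ := by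
      unfold cEis
      have hpe : (p : ℂ) = 2 * h + 1 := by exact_mod_cast hh
      rw [hpe]
      push_cast
      have : (2 * (h : ℂ) + 1 - 1) = 2 * h := by ring
      rw [this]
      field_simp
      ring
    rw [this]
    exact R.mul_mem (natCast_mem R m) (hR2 h h1)
  · have : ((p : ℂ) + 1) / (12 * ℓ * p) = (a : ℂ) * ((b : ℂ))⁻¹ := by
      have habc : ((p : ℂ) + 1) * b = 12 * ℓ * p * a := by exact_mod_cast hab
      field_simp
      linear_combination habc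
    rw [this]
    exact R.mul_mem (natCast_mem R a) (hR2 b hb)
  · apply hR2
    intro hd
    exact hℓp ((Nat.prime_dvd_prime_iff_eq hℓ hpp).1 hd)

theorem b2u_ge_five (hp : 5 ≤ p) {u : PowerSeries ℂ} (hu : UpperData p M u)
    {ℓ : ℕ} (hℓ : ℓ.Prime) (h5 : 5 ≤ ℓ) (hdvd : ℓ ∣ p + 1) : ¬ ℓ ∣ M := by
  have hpp : p.Prime := Fact.out
  obtain ⟨t, ht⟩ := hdvd
  have hℓp : ℓ ≠ p := by
    rintro rfl
    have : ℓ ∣ 1 := (Nat.dvd_add_right (dvd_refl ℓ)).1 ⟨t, ht⟩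
    have := Nat.le_of_dvd one_pos this
    omega
  refine b2u_of_nat hp hu hℓ ?_ hℓp t (12 * p) ?_ ?_
  · intro hd
    have h1 : ℓ ∣ p - 1 := hd.trans (Nat.div_dvd_of_dvd (by
      rcases hpp.eq_two_or_odd with h | h <;> omega))
    have h2 : ℓ ∣ (p + 1) - (p - 1) := Nat.dvd_sub ⟨t, ht⟩ h1
    have h3 : (p + 1) - (p - 1) = 2 := by omega
    rw [h3] at h2
    have := Nat.le_of_dvd (by norm_num) h2
    omega
  · intro hd
    rcases (Nat.Prime.dvd_mul hℓ).1 hd with h | h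
    · have := Nat.le_of_dvd (by norm_num) h
      interval_cases ℓ <;> first | omega | exact absurd hℓ (by norm_num)
    · exact hℓp ((Nat.prime_dvd_prime_iff_eq hℓ hpp).1 h)
  · rw [ht]; ring

theorem b2u_three (hp : 5 ≤ p) {u : PowerSeries ℂ} (hu : UpperData p M u)
    (hdvd : 9 ∣ p + 1) : ¬ 3 ∣ M := by
  have hpp : p.Prime := Fact.out
  obtain ⟨t, ht⟩ := hdvd
  have hodd : p % 2 = 1 := by
    rcases hpp.eq_two_or_odd with h | h
    · omega
    · exact h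
  refine b2u_of_nat hp hu Nat.prime_three ?_ (by omega) t (4 * p) ?_ ?_
  · omega
  · intro hd
    rcases (Nat.Prime.dvd_mul Nat.prime_three).1 hd with h | h
    · omega
    · have := (Nat.prime_dvd_prime_iff_eq Nat.prime_three hpp).1 h
      omega
  · rw [ht]; ring

theorem b2u_two (hp : 5 ≤ p) {u : PowerSeries ℂ} (hu : UpperData p M u)
    (hdvd : 8 ∣ p + 1) : ¬ 2 ∣ M := by
  have hpp : p.Prime := Fact.out
  obtain ⟨t, ht⟩ := hdvd
  refine b2u_of_nat hp hu Nat.prime_two ?_ (by omega) t (3 * p) ?_ ?_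
  · omega
  · intro hd
    rcases (Nat.Prime.dvd_mul Nat.prime_two).1 hd with h | h
    · omega
    · have := (Nat.prime_dvd_prime_iff_eq Nat.prime_two hpp).1 h
      omega
  · rw [ht]; ring

end Fermat.Agent.S16
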