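import Fermat.Agent.S16.Core.Basic
import Fermat.Agent.S16.Core.Cusp
import Fermat.Agent.S16.Core.Trace
import Fermat.Agent.S16.Core.GoodRing
import Fermat.Agent.S16.EisP
import Fermat.Prelude.Def_FLTPrelim_Modularity

/-!
# S16 upper bound, package PKG-7: set-up

From a cusp form `f ≡ δ = ∑ σ'(n) q^n (mod M)` we get `g = e' - f = c + M u`, `c = (p-1)/24`,
`u ∈ q ℤ⟦q⟧`, with expansion `-(1/p) (c + M U_p u)` at the other cusp.
-/

set_option autoImplicit false

namespace Fermat.Agent.S16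

open UpperHalfPlane ModularForm CongruenceSubgroup ModularFormClass Fermat.Agent.S23
open scoped MatrixGroups ModularForm Manifold

/-- the hypothesis `CongEis p M` of `Duality.lean`, for a given `f`. -/
def IsCongEis (p M : ℕ) (f : CuspForm (Gamma0 p) 2) : Prop :=
  ∀ k : ℕ, 1 ≤ k → ∃ m : ℤ, qCoeff f k = (sigmaP p k : ℂ) + (M : ℂ) * (m : ℂ)

/-- the constant `c = (p - 1) / 24`. -/
noncomputable def cEis (p : ℕ) : ℂ := ((p : ℂ) - 1) / 24

/-- `g = c + M u` is a modular form of weight two on `Γ₀(p)`. -/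
structure UpperData (p M : ℕ) (u : PowerSeries ℂ) : Prop where
  int : u ∈ intSeries
  coeff_zero : PowerSeries.coeff 0 u = 0
  twoCusp : TwoCusp p 2 (PowerSeries.C (cEis p) + (M : ℂ) • u)
    ((-(p : ℂ)⁻¹) • (PowerSeries.C (cEis p) + (M : ℂ) • Up p u))

variable {p : ℕ} [Fact p.Prime] {M : ℕ}

/-- (`exists_eisP`, `TwoCusp.exists_of_modularForm`, `TwoCusp.exists_of_cuspForm`, `TwoCusp.sub`,
`TwoCusp.weight_two`.) -/
theorem exists_upperData {f : CuspForm (Gamma0 p) 2} (hf : IsCongEis p M f) :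
    ∃ u, UpperData p M u ∧ ∃ a : PowerSeries ℂ, a ∈ intSeries ∧ PowerSeries.coeff 0 a = 0 ∧
      (∃ m : ℤ, PowerSeries.coeff 1 a = 1 + (M : ℂ) * m) ∧
      TwoCusp p 2 a ((-(p : ℂ)⁻¹) • Up p a) ∧ Up p (Up p a) = a := by
  have hp : p.Prime := Fact.out
  have : NeZero p := ⟨hp.ne_zero⟩
  choose! m hm using hf
  obtain ⟨E, hE0, hE⟩ := exists_eisP p
  obtain ⟨BE, hBE⟩ := TwoCusp.exists_of_modularForm E
  obtain ⟨Bf, hBf⟩ := TwoCusp.exists_of_cuspForm f
  have hf0 : PowerSeries.coeff 0 (qExpansion 1 f) = 0 :=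
    CuspFormClass.qExpansion_coeff_zero f one_pos
      (CongruenceSubgroup.one_mem_strictPeriods_Gamma0 p)
  have hfk : ∀ k : ℕ, 1 ≤ k →
      PowerSeries.coeff k (qExpansion 1 f) = (sigmaP p k : ℂ) + (M : ℂ) * (m k : ℂ) := hm
  -- the series `u`
  set u : PowerSeries ℂ := PowerSeries.mk fun n => if n = 0 then 0 else -(m n : ℂ) with hu
  have hu0 : PowerSeries.coeff 0 u = 0 := by simp [hu]
  have huint : u ∈ intSeries := by
    rw [mem_intSeries_iff]
    intro n
    by_cases hn : n = 0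
    · exact ⟨0, by simp [hu, hn]⟩
    · exact ⟨-(m n), by simp [hu, hn]⟩
  have hG : qExpansion 1 E - qExpansion 1 f = PowerSeries.C (cEis p) + (M : ℂ) • u := by
    ext n
    by_cases hn : n = 0
    · subst hn
      rw [map_sub, hE0, hf0, map_add, PowerSeries.coeff_zero_C, PowerSeries.coeff_smul, hu0]
      simp [cEis]
    · have hn1 : 1 ≤ n := Nat.one_le_iff_ne_zero.mpr hn
      rw [map_sub, hE n hn1, hfk n hn1, map_add, PowerSeries.coeff_C, if_neg hn,
        PowerSeries.coeff_smul, hu, PowerSeries.coeff_mk, if_neg hn]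
      simp
  have hsub := hBE.sub hBf
  have hw := hsub.weight_two
  rw [hw.1, hG] at hsub
  have hUp : Up p (PowerSeries.C (cEis p) + (M : ℂ) • u) =
      PowerSeries.C (cEis p) + (M : ℂ) • Up p u := by
    rw [Up_add, Up_C, Up_smul]
  rw [hUp] at hsub
  refine ⟨u, ⟨huint, hu0, hsub⟩, qExpansion 1 f, ?_, hf0, ?_, ?_, ?_⟩
  · rw [mem_intSeries_iff]
    intro n
    by_cases hn : n = 0
    · exact ⟨0, by rw [hn, hf0]; simp⟩
    · exact ⟨sigmaP p n + (M : ℤ) * m n, by
        rw [hfk n (Nat.one_le_iff_ne_zero.mpr hn)]; push_cast; ring⟩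
  · exact ⟨m 1, by rw [hfk 1 le_rfl, sigmaP_one p hp]; simp⟩
  · have h2 := hBf.weight_two
    rw [h2.1] at hBf
    exact hBf
  · exact hBf.weight_two.2

end Fermat.Agent.S16
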